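import Fermat.Agent.S55.G.CM.Spec
import Fermat.Agent.S55.GAD.H953.InfInj
import Fermat.Agent.S55.T.InfResTorsH244
import Fermat.Agent.S55.T.UglyH954
import Fermat.Agent.S55.T.CoresH572

/-!
# S55 / G-CM:ORD (helper954): `quotOrder : QuotOrderSpec`

`π : Γ' ↠ Γ`, `Γ` a `p`-group, `C = C'^{ker π}`, `(C', γ)` a class module at `p`.  Then
`Y = |ker π| • γ` is killed by `|Γ|`, dies on `ker π` and has order `|Γ|`; by the `p`-local
inflation–restriction sequence (helper244) it is inflated from `y ∈ H²(Γ, C)` (comparison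
isomorphism of helper953), and `y` has order (at least) `|Γ|`.
-/

set_option autoImplicit false
set_option linter.unusedSectionVars false
set_option linter.style.haveILetI false

open CategoryTheory groupCohomology

namespace Fermat.Agent.S55.G.CM.H954

open Fermat.Agent.S55 Fermat.Agent.S55.G.Rec

/-- **G-CM:ORD.** -/
theorem quotOrder : QuotOrderSpec := by
  intro p hp Γ' Γ _ _ _ π hπ hΓ C C' ι hι γ hγ
  classical
  haveI : Fact p.Prime := ⟨hp⟩
  haveI : Finite Γ := Finite.of_surjective π hπ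
  -- a Sylow subgroup `Q` of `N = ker π` and a Sylow subgroup `P'` of `Γ'`
  obtain ⟨Q⟩ : Nonempty (Sylow p π.ker) := inferInstance
  obtain ⟨P'⟩ : Nonempty (Sylow p Γ') := inferInstance
  -- cardinalities
  have hcard : Nat.card Γ' = Nat.card π.ker * Nat.card Γ := by
    rw [← Nat.card_congr (QuotientGroup.quotientKerEquivOfSurjective π hπ).toEquiv, mul_comm]
    exact Subgroup.card_eq_card_quotient_mul_card_subgroup π.ker
  obtain ⟨c, hc⟩ := hΓ.exists_card_eq
  -- `H¹(Q, C') = 0`
  have hQ : ∀ z : groupCohomology (T.resSub (T.resSub C' π.ker) (Q : Subgroup π.ker)) 1, z = 0 := by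
    intro z
    have hz1 := (hγ ((Q : Subgroup π.ker).map π.ker.subtype) (Q.isPGroup'.map _)).1
    exact T.H954.eq_zero_of_iso_of_isZero (T.H954.resResIso C' π.ker (Q : Subgroup π.ker) 1) hz1 z
  have hcop : (Nat.card Γ).Coprime (Q : Subgroup π.ker).index := by
    rw [hc]
    exact Nat.Coprime.pow_left c ((Nat.Prime.coprime_iff_not_dvd hp).2 Q.not_dvd_index)
  -- the class `Y`
  set Y : groupCohomology C' 2 := Nat.card π.ker • γ with hY
  have hY1 : Nat.card Γ • Y = 0 := by
    rw [hY, ← mul_nsmul', mul_comm, ← hcard] 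
    exact T.H572.cardTorsion ℤ Γ' C' 2 (by norm_num) γ
  have hY2 : (T.resMap C' π.ker 2).hom Y = 0 := by
    rw [hY, map_nsmul]
    exact T.H572.cardTorsion ℤ π.ker (T.resSub C' π.ker) 2 (by norm_num) _
  obtain ⟨y₀, hy₀⟩ := (T.H244.infRes2_of_subgroup C' π.ker (Q : Subgroup π.ker) hQ hcop).2
    Nat.card_pos Y hY1 hY2
  -- transport to `H²(Γ, C)`
  have hfac := GAD.H953.map_eq_compIso_infMap π C' C ι hπ hι.1 hι.2 2
  refine ⟨(GAD.H953.compIso π C' C ι hπ hι.1 hι.2 2).inv.hom y₀, fun n hn => ?_⟩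
  have hmap : (groupCohomology.map π ι 2).hom
      ((GAD.H953.compIso π C' C ι hπ hι.1 hι.2 2).inv.hom y₀) = Y := by
    rw [hfac]
    show (T.infMap C' π.ker 2).hom ((GAD.H953.compIso π C' C ι hπ hι.1 hι.2 2).hom.hom
      ((GAD.H953.compIso π C' C ι hπ hι.1 hι.2 2).inv.hom y₀)) = Y
    have hid : (GAD.H953.compIso π C' C ι hπ hι.1 hι.2 2).hom.hom
        ((GAD.H953.compIso π C' C ι hπ hι.1 hι.2 2).inv.hom y₀) = y₀ := by
      simp
    rw [hid, hy₀]
  have hnY : n • Y = 0 := by
    rw [← hmap, ← map_nsmul, hn, map_zero]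
  -- the order of `Y`, via the Sylow subgroup `P'`
  obtain ⟨-, hcardP, hgenP⟩ := hγ (P' : Subgroup Γ') P'.isPGroup'
  set g₀ := (T.resMap C' (P' : Subgroup Γ') 2).hom γ with hg₀
  haveI hfin : Finite (groupCohomology (T.resSub C' (P' : Subgroup Γ')) 2) :=
    Nat.finite_of_card_ne_zero (by rw [hcardP]; exact Nat.card_pos.ne')
  have hord : addOrderOf g₀ = Nat.card (P' : Subgroup Γ') := by
    rw [← hcardP]
    apply addOrderOf_eq_card_of_forall_mem_zmultiples
    intro x
    obtain ⟨m, hm⟩ := hgenP x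
    rw [hm]
    exact AddSubgroup.nsmul_mem _ (AddSubgroup.mem_zmultiples g₀) m
  have h1 : (n * Nat.card π.ker) • g₀ = 0 := by
    have hX : (n * Nat.card π.ker) • γ = n • Y := by
      rw [hY, mul_nsmul]
      exact smul_comm _ _ _
    rw [hg₀, ← map_nsmul, hX, hnY, map_zero]
  have h2 : Nat.card (P' : Subgroup Γ') ∣ n * Nat.card π.ker := by
    rw [← hord]
    exact addOrderOf_dvd_of_nsmul_eq_zero h1
  -- arithmetic
  have h3 : Nat.card (P' : Subgroup Γ') * (P' : Subgroup Γ').index = Nat.card Γ' :=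
    (P' : Subgroup Γ').card_mul_index
  have h4 : Nat.card Γ * Nat.card π.ker ∣ (n * (P' : Subgroup Γ').index) * Nat.card π.ker := by
    have : Nat.card Γ * Nat.card π.ker = Nat.card (P' : Subgroup Γ') * (P' : Subgroup Γ').index := by
      rw [h3, hcard, mul_comm]
    rw [this]
    have h5 : Nat.card (P' : Subgroup Γ') * (P' : Subgroup Γ').index ∣
        (n * Nat.card π.ker) * (P' : Subgroup Γ').index := Nat.mul_dvd_mul_right h2 _
    have h6 : n * Nat.card π.ker * (P' : Subgroup Γ').index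
        = n * (P' : Subgroup Γ').index * Nat.card π.ker := by ring
    rwa [h6] at h5
  have h7 : Nat.card Γ ∣ n * (P' : Subgroup Γ').index :=
    Nat.dvd_of_mul_dvd_mul_right Nat.card_pos h4
  have h8 : (Nat.card Γ).Coprime (P' : Subgroup Γ').index := by
    rw [hc]
    exact Nat.Coprime.pow_left c ((Nat.Prime.coprime_iff_not_dvd hp).2 P'.not_dvd_index)
  exact h8.dvd_of_dvd_mul_right h7

end Fermat.Agent.S55.G.CM.H954
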